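/-
S44, node F, block (I1) (owner helper102): SKELETON (statements of the leaves; the final theorem is
proved from them).  Never import this file.
-/
import Fermat.Agent.S44.F.I1.Defs
import Fermat.Agent.S21.Primitive
import Fermat.Agent.S22.Primitive
import Fermat.Agent.S49.Basic

set_option autoImplicit false

namespace Fermat.Agent.S44.F.I1

open UpperHalfPlane hiding I
open Complex Filter Topology Function CongruenceSubgroup ModularFormClass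
open scoped Manifold Real MatrixGroups ModularForm

/-! ### Leaf P: calculus of primitives -/

theorem IsPrim.add {G G' g g' : ℍ → ℂ} (h : IsPrim G g) (h' : IsPrim G' g') :
    IsPrim (G + G') (g + g') := sorry

theorem IsPrim.const_mul (c : ℂ) {G g : ℍ → ℂ} (h : IsPrim G g) :
    IsPrim (fun τ => c * G τ) (fun τ => c * g τ) := sorry

theorem IsPrim.sum {ι : Type*} (s : Finset ι) {G g : ι → ℍ → ℂ} (h : ∀ i ∈ s, IsPrim (G i) (g i)) :
    IsPrim (fun τ => ∑ i ∈ s, G i τ) (fun τ => ∑ i ∈ s, g i τ) := sorry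

/-- two primitives of the same function differ by a constant -/
theorem IsPrim.sub_const {G G' g : ℍ → ℂ} (h : IsPrim G g) (h' : IsPrim G' g) (τ τ' : ℍ) :
    G τ - G' τ = G τ' - G' τ' := sorry

theorem IsPrim.comp_smul {G g : ℍ → ℂ} (h : IsPrim G g) (δ : SL(2, ℤ)) :
    IsPrim (fun τ => G (δ • τ)) (g ∣[(2 : ℤ)] δ) := sorry

theorem isPrim_coe : IsPrim (fun τ : ℍ => (τ : ℂ)) (fun _ => 1) := sorry

theorem isPrim_qq_zpow (l : ℤ) (hl : l ≠ 0) :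
    IsPrim (fun τ => qq τ ^ l / (2 * π * I * l)) (fun τ => qq τ ^ l) := sorry

theorem qq_T_smul (τ : ℍ) : qq (ModularGroup.T • τ) = qq τ := sorry

theorem qq_ne_zero (τ : ℍ) : qq τ ≠ 0 := sorry

theorem coe_T_zpow_smul' (n : ℕ) (τ : ℍ) : ((ModularGroup.T ^ n • τ : ℍ) : ℂ) = (τ : ℂ) + n := sorry

/-- a holomorphic function which is invariant under `T ^ L` and vanishes at `i∞` has a primitive
which is invariant under `T ^ L` -/
theorem exists_periodic_prim {L : ℕ} (hL : 0 < L) {φ : ℍ → ℂ} (hhol : MDiff φ)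
    (hper : ∀ τ, φ (ModularGroup.T ^ L • τ) = φ τ) (hzero : IsZeroAtImInfty φ) :
    ∃ ψ : ℍ → ℂ, IsPrim ψ φ ∧ ∀ τ, ψ (ModularGroup.T ^ L • τ) = ψ τ := sorry

/-! ### Leaf G: the group theory -/

/-- an additive function on `SL(2, ℤ)` with values in `ℂ` vanishes -/
theorem additive_eq_zero (lam : SL(2, ℤ) → ℂ) (h : ∀ a b, lam (a * b) = lam a + lam b)
    (δ : SL(2, ℤ)) : lam δ = 0 := sorry

theorem conj_T_pow_mem (N : ℕ) (δ : SL(2, ℤ)) : δ * ModularGroup.T ^ N * δ⁻¹ ∈ Gamma0 N := sorry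

/-- **The abstract core.** -/
theorem core (N : ℕ) [NeZero N] {G g : ℍ → ℂ} (hG : IsPrim G g)
    (hg : ∀ γ ∈ Gamma0 N, g ∣[(2 : ℤ)] γ = g) (L : ℕ)
    (hper : ∀ γ : SL(2, ℤ), γ ∉ Gamma0 N → ∀ τ, G (γ • (ModularGroup.T ^ L • τ)) = G (γ • τ))
    (τ : ℍ) : G (ModularGroup.T ^ L • τ) = G τ := sorry

/-! ### Leaf A: the cusp `∞` -/

/-- the tail of the `q`-expansion of a cusp form -/
noncomputable def tail {N : ℕ} (f : CuspForm (Gamma0 N) 2) (n : ℕ) (τ : ℍ) : ℂ :=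
  qq τ ^ (-(n : ℤ)) * (f τ - ∑ j ∈ Finset.Icc 1 n, qCoeff f j * qq τ ^ j)

theorem tail_mdiff {N : ℕ} (f : CuspForm (Gamma0 N) 2) (n : ℕ) : MDiff (tail f n) := sorry

theorem tail_T {N : ℕ} (f : CuspForm (Gamma0 N) 2) (n : ℕ) (τ : ℍ) :
    tail f n (ModularGroup.T • τ) = tail f n τ := sorry

theorem tail_zero {N : ℕ} (f : CuspForm (Gamma0 N) 2) (n : ℕ) : IsZeroAtImInfty (tail f n) := sorry

/-- a primitive of `q⁻ⁿ f` with period `a_n(f)` -/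
theorem exists_prim_qpow_mul {N : ℕ} (f : CuspForm (Gamma0 N) 2) (n : ℕ) (hn : 1 ≤ n) :
    ∃ F : ℍ → ℂ, IsPrim F (fun τ => qq τ ^ (-(n : ℤ)) * f τ) ∧
      ∀ τ, F (ModularGroup.T • τ) - F τ = qCoeff f n := sorry

/-- a primitive of `β f` with period `∑ c_n a_n(f)` -/
theorem exists_prim_mul {N : ℕ} (β : ℍ → ℂ) (hβ : MDiff β)
    (hT : ∀ τ, β (ModularGroup.T • τ) = β τ) (m : ℕ) (c : ℕ → ℂ)
    (hpol : IsBoundedAtImInfty (fun τ => β τ - ∑ n ∈ Finset.Icc 1 m, c n * qq τ ^ (-(n : ℤ))))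
    (f : CuspForm (Gamma0 N) 2) :
    ∃ G : ℍ → ℂ, IsPrim G (fun τ => β τ * f τ) ∧
      ∀ τ, G (ModularGroup.T • τ) - G τ = ∑ n ∈ Finset.Icc 1 m, c n * qCoeff f n := sorry

theorem sub_of_T_pow {G : ℍ → ℂ} {a : ℂ} (h : ∀ τ, G (ModularGroup.T • τ) - G τ = a) (L : ℕ)
    (τ : ℍ) : G (ModularGroup.T ^ L • τ) - G τ = L * a := sorry

/-! ### Leaf B: the other cusps -/

theorem slash_mul_apply {N : ℕ} (β : ℍ → ℂ) (f : CuspForm (Gamma0 N) 2) (γ : SL(2, ℤ)) (τ : ℍ) :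
    ((fun τ => β τ * f τ) ∣[(2 : ℤ)] γ) τ = β (γ • τ) * ((f : ℍ → ℂ) ∣[(2 : ℤ)] γ) τ := sorry

theorem slash_invariant {N : ℕ} (β : ℍ → ℂ) (hinv : ∀ γ ∈ Gamma0 N, ∀ τ, β (γ • τ) = β τ)
    (f : CuspForm (Gamma0 N) 2) (γ : SL(2, ℤ)) (hγ : γ ∈ Gamma0 N) :
    (fun τ => β τ * f τ) ∣[(2 : ℤ)] γ = fun τ => β τ * f τ := sorry

theorem slash_T_pow_apply (h : ℍ → ℂ) (L : ℕ) (τ : ℍ) :
    (h ∣[(2 : ℤ)] (ModularGroup.T ^ L : SL(2, ℤ))) τ = h (ModularGroup.T ^ L • τ) := sorry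

/-- the primitives of `(β f)|γ` are invariant under `T ^ N` if `β ∘ γ` is bounded at `i∞` -/
theorem other_cusp {N : ℕ} [NeZero N] (β : ℍ → ℂ) (hβ : MDiff β)
    (hinv : ∀ γ ∈ Gamma0 N, ∀ τ, β (γ • τ) = β τ) (f : CuspForm (Gamma0 N) 2) (γ : SL(2, ℤ))
    (hreg : IsBoundedAtImInfty (fun τ => β (γ • τ))) {G : ℍ → ℂ}
    (hG : IsPrim G (fun τ => β τ * f τ)) (τ : ℍ) :
    G (γ • (ModularGroup.T ^ N • τ)) = G (γ • τ) := sorry

/-! ### The theorem -/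

theorem const_term_vanishes (N : ℕ) [NeZero N] (β : ℍ → ℂ) (hβ : MDiff β)
    (hinv : ∀ γ ∈ Gamma0 N, ∀ τ, β (γ • τ) = β τ) (m : ℕ) (c : ℕ → ℂ)
    (hpol : IsBoundedAtImInfty (fun τ => β τ - ∑ n ∈ Finset.Icc 1 m, c n * qq τ ^ (-(n : ℤ))))
    (hreg : ∀ γ : SL(2, ℤ), γ ∉ Gamma0 N → IsBoundedAtImInfty (fun τ => β (γ • τ)))
    (f : CuspForm (Gamma0 N) 2) :
    ∑ n ∈ Finset.Icc 1 m, c n * qCoeff f n = 0 := by
  have hTmem : ModularGroup.T ∈ Gamma0 N := by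
    rw [Gamma0_mem]
    simp [ModularGroup.T]
  obtain ⟨G, hG, hper⟩ := exists_prim_mul β hβ (fun τ => hinv _ hTmem τ) m c hpol f
  have h1 := core N hG (fun γ hγ => slash_invariant β hinv f γ hγ) N
    (fun γ hγ τ => other_cusp β hβ hinv f γ (hreg γ hγ) hG τ) UpperHalfPlane.I
  have h2 := sub_of_T_pow hper N UpperHalfPlane.I
  rw [h1, sub_self] at h2
  have hN : (N : ℂ) ≠ 0 := by exact_mod_cast NeZero.ne N
  exact (mul_eq_zero.1 h2.symm).resolve_left hN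

end Fermat.Agent.S44.F.I1
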